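/-
S55 / LOC / block LCA : the EXPORT of abstract local class field theory (statement fixed by the captain;
internal skeleton = architect of LCA).
-/
import Fermat.Agent.S55.Loc.Abs.Defs
import Fermat.Agent.S55.Arith.LocInterface

set_option autoImplicit false

namespace Fermat.Agent.S55.Loc

variable {Γ : Type} [Group Γ] {𝓝 : LevelSys Γ} {K : Type} [AddCommGroup K] [DistribMulAction Γ K]

/-- `Y × ZSet d → Y` is a cyclic cover of degree `n`. -/
theorem zCover (Y : Type) [MulAction Γ Y] {n : ℕ} [NeZero n] (d : Γ →* Multiplicative (ZMod n)) :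
    CyclicCover (zProj Y d) (zShift Y d) n := sorry

theorem smoothSet_ZSet {n : ℕ} (d : Γ →* Multiplicative (ZMod n)) (h : 𝓝.IsOpen d.ker) :
    SmoothSet 𝓝 (ZSet d) := sorry

instance smoothSet_prod (Y Z : Type) [MulAction Γ Y] [MulAction Γ Z] [SmoothSet 𝓝 Y]
    [SmoothSet 𝓝 Z] : SmoothSet 𝓝 (Y × Z) := sorry

/-- MAIN THEOREM OF LCA. -/
theorem exists_inv {p : ℕ} [Fact p.Prime] [Smooth 𝓝 K] (ax : LocAx Γ 𝓝 K p) :
    ∃ inv : Hsm 𝓝 K 2 →+ QZ,
      -- the invariant of the unramified classes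
      (∀ (Y : Type) [MulAction Γ Y] [Finite Y] [SmoothSet 𝓝 Y] (n : ℕ) [NeZero n]
        [Smooth 𝓝 (IndMod (Y × ZSet (ax.d n)) K)] (a : Hsm 𝓝 (IndMod Y K) 0),
        inv (Hsm.map (IndMod.sum Y K) 2 (((zCover Y (ax.d n)).fourTerm (A := K)).theta 0 a)) =
          QZ.mk ((wY ax.ord Y a : ℚ) / n)) ∧
      -- L3inj
      (∀ (Y : Type) [MulAction Γ Y] [Finite Y] [SmoothSet 𝓝 Y] [MulAction.IsPretransitive Γ Y],
        ∀ y ∈ pPrimary p (Hsm 𝓝 (IndMod Y K) 2), inv (Hsm.map (IndMod.sum Y K) 2 y) = 0 → y = 0) ∧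
      -- L3surj
      (∀ (Y : Type) [MulAction Γ Y] [Finite Y] [SmoothSet 𝓝 Y] [MulAction.IsPretransitive Γ Y]
        [Nonempty Y], ∀ c ∈ pPrimary p QZ,
        ∃ y ∈ pPrimary p (Hsm 𝓝 (IndMod Y K) 2), inv (Hsm.map (IndMod.sum Y K) 2 y) = c) := sorry

end Fermat.Agent.S55.Loc
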